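import Fermat.Agent.S22.Period
import Fermat.Prelude.Thm_Subgroup_IsArithmetic_exists_nat_mem_strictPeriods_conj

set_option autoImplicit false

namespace Fermat.Agent.S22

open Complex Polynomial
open UpperHalfPlane hiding I
open scoped Manifold MatrixGroups ModularForm

/-- Cusp forms on `Γ₀(N)` are admissible: every `SL(2,ℤ)`-translate is holomorphic and decays
exponentially at `i∞` (Mathlib: `CuspForm.translate`, `CuspFormClass.exp_decay_atImInfty`, with a
period provided by the Prelude lemma `Subgroup.IsArithmetic.exists_nat_mem_strictPeriods_conj`;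
then `StripDecay.of_isBigO`). -/
theorem adm_cuspForm (N : ℕ) [NeZero N] (k : ℤ) (f : CuspForm (CongruenceSubgroup.Gamma0 N) k) :
    Adm k ⇑f := by
  intro γ
  obtain ⟨M, hM, hper⟩ := Subgroup.IsArithmetic.exists_nat_mem_strictPeriods_conj
    ((CongruenceSubgroup.Gamma0 N : Subgroup SL(2, ℤ)) : Subgroup (GL (Fin 2) ℝ))
  have hMpos : (0 : ℝ) < (M : ℝ) := by exact_mod_cast hM
  have hperγ := hper γ⁻¹
  rw [map_inv] at hperγ
  have hcoe : ⇑(CuspForm.translate f (Matrix.SpecialLinearGroup.mapGL ℝ γ)) = ⇑f ∣[k] γ := rfl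
  have hdecay := CuspFormClass.exp_decay_atImInfty
    (CuspForm.translate f (Matrix.SpecialLinearGroup.mapGL ℝ γ)) hMpos hperγ
  rw [hcoe] at hdecay
  refine ⟨?_, ?_⟩
  · rw [← hcoe]
    exact CuspFormClass.holo (CuspForm.translate f (Matrix.SpecialLinearGroup.mapGL ℝ γ))
  · have hc : (0 : ℝ) < 2 * Real.pi / M := div_pos Real.two_pi_pos hMpos
    refine StripDecay.of_isBigO hc ?_
    have heq : (fun τ : ℍ => Real.exp (-2 * Real.pi * τ.im / (M : ℝ))) =
        fun τ : ℍ => Real.exp (-(2 * Real.pi / M) * τ.im) := by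
      funext τ
      congr 1
      ring
    rw [← heq]
    exact hdecay

end Fermat.Agent.S22
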