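import Mathlib
import Fermat.Prelude.Def_CuspForm_HeckeAlgebra
import Fermat.Prelude.Def_CuspForm_IntegralStructure
import Fermat.Prelude.Thm_CuspForm_intLattice_fg
import Fermat.Prelude.Thm_CuspForm_mem_intLattice_of_mem_heckeAlgebra
import Fermat.Prelude.Thm_ModularForm_sturm_bound_Gamma0
import Fermat.Prelude.Thm_CongruenceSubgroup_one_mem_strictPeriods_Gamma0

/-!
# S22 from an integral structure

If `S_k(Γ₀(N))` is spanned over `ℂ` by forms with integral `q`-expansion (`k ≥ 1`), then the
Hecke algebra embeds `ℤ`-linearly into `End_ℤ(intLattice N k)`, which is a finitely generated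
`ℤ`-module; hence the Hecke algebra is a finite `ℤ`-module.
-/

set_option autoImplicit false

namespace Fermat.Agent.S22

open CuspForm

theorem moduleFinite_heckeAlgebra_of_hasIntegralStructure (N : ℕ) [NeZero N] (k : ℤ)
    (hk : 1 ≤ k) (S : Set ℕ) (h : CuspForm.HasIntegralStructure N k) :
    Module.Finite ℤ (CuspForm.heckeAlgebra N k S) := by
  classical
  have hfin : Module.Finite ℤ (CuspForm.intLattice N k) :=
    Module.Finite.iff_fg.mpr (CuspForm.intLattice_fg N k)
  have htf : IsAddTorsionFree (CuspForm.intLattice N k) :=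
    { nsmul_right_injective := fun n hn a b hab => by
        apply Subtype.ext
        have h1 : (n : ℂ) • (a : CuspForm (CongruenceSubgroup.Gamma0 N) k) =
            (n : ℂ) • (b : CuspForm (CongruenceSubgroup.Gamma0 N) k) := by
          simp only [Nat.cast_smul_eq_nsmul]
          exact congrArg Subtype.val hab
        exact smul_right_injective _ (Nat.cast_ne_zero.mpr hn) h1 }
  have hfree : Module.Free ℤ (CuspForm.intLattice N k) := Module.free_of_finite_type_torsion_free'
  have hfin2 : Module.Finite ℤ ((CuspForm.intLattice N k) →ₗ[ℤ] (CuspForm.intLattice N k)) :=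
    Module.Finite.linearMap _ _ _ _
  let ρ : (CuspForm.heckeAlgebra N k S) →ₗ[ℤ]
      ((CuspForm.intLattice N k) →ₗ[ℤ] (CuspForm.intLattice N k)) :=
    { toFun := fun t =>
        (((t : Module.End ℂ (CuspForm (CongruenceSubgroup.Gamma0 N) k)).restrictScalars ℤ).restrict
          (fun f hf => CuspForm.mem_intLattice_of_mem_heckeAlgebra hk t.2 hf))
      map_add' := fun s t => by
        ext f
        rfl
      map_smul' := fun c t => by
        ext f
        rfl }
  have hρ : Function.Injective ρ := by
    intro s t hst
    apply Subtype.ext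
    apply LinearMap.ext_on_range (v := fun f : CuspForm.intLattice N k =>
      (f : CuspForm (CongruenceSubgroup.Gamma0 N) k))
    · rw [Subtype.range_coe_subtype]
      exact h
    · intro f
      have h1 := congrArg (fun (g : (CuspForm.intLattice N k) →ₗ[ℤ] (CuspForm.intLattice N k)) =>
        ((g f : CuspForm.intLattice N k) : CuspForm (CongruenceSubgroup.Gamma0 N) k)) hst
      exact h1
  exact Module.Finite.of_injective ρ hρ

/-- Cusp forms of weight `k ≤ 0` on `Γ₀(N)` vanish (Sturm bound from the Prelude). -/
theorem fromIntegral_cuspForm_eq_zero_of_nonpos (N : ℕ) [NeZero N] {k : ℤ} (hk : k ≤ 0)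
    (f : CuspForm (CongruenceSubgroup.Gamma0 N) k) : f = 0 := by
  let g : ModularForm (CongruenceSubgroup.Gamma0 N) k :=
    { toSlashInvariantForm := f.toSlashInvariantForm
      holo' := f.holo'
      bdd_at_cusps' := fun hc => ModularFormClass.bdd_at_cusps f hc }
  have hg : g = 0 := by
    apply ModularForm.sturm_bound_Gamma0 N g
    intro n hn
    have hn0 : n = 0 := by
      have h1 : (k * ((CongruenceSubgroup.Gamma0 N).index : ℤ)).toNat = 0 := by
        apply Int.toNat_of_nonpos
        exact mul_nonpos_of_nonpos_of_nonneg hk (Int.natCast_nonneg _)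
      rw [h1] at hn
      simpa using hn
    subst hn0
    exact CuspFormClass.qExpansion_coeff_zero (f := f) one_pos
      (CongruenceSubgroup.one_mem_strictPeriods_Gamma0 N)
  ext z
  have h2 := congrArg (fun φ : ModularForm (CongruenceSubgroup.Gamma0 N) k => φ z) hg
  exact h2

/-- **S22 from integral structures in all positive weights.** -/
theorem moduleFinite_heckeAlgebra_of_forall_hasIntegralStructure (N : ℕ) [NeZero N] (k : ℤ)
    (S : Set ℕ) (h : 1 ≤ k → CuspForm.HasIntegralStructure N k) :
    Module.Finite ℤ (CuspForm.heckeAlgebra N k S) := by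
  rcases lt_or_ge k 1 with hk | hk
  · have hsub : Subsingleton (CuspForm (CongruenceSubgroup.Gamma0 N) k) :=
      ⟨fun f g => by
        rw [fromIntegral_cuspForm_eq_zero_of_nonpos N (by omega) f,
          fromIntegral_cuspForm_eq_zero_of_nonpos N (by omega) g]⟩
    have hsub2 : Subsingleton (Module.End ℂ (CuspForm (CongruenceSubgroup.Gamma0 N) k)) :=
      ⟨fun s t => LinearMap.ext fun f => Subsingleton.elim _ _⟩
    have hsub3 : Subsingleton (CuspForm.heckeAlgebra N k S) :=
      ⟨fun s t => Subtype.ext (Subsingleton.elim _ _)⟩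
    exact Module.Finite.of_finite
  · exact moduleFinite_heckeAlgebra_of_hasIntegralStructure N k hk S (h hk)

end Fermat.Agent.S22
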