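import Fermat.Agent.S22.DecayPrim2

set_option autoImplicit false

namespace Fermat.Agent.S22

open Complex Set Filter Topology
open UpperHalfPlane hiding I
open scoped Manifold MatrixGroups ModularForm

/-! ### The normalised (strip-decaying) primitive -/

open Classical in
/-- The strip-decaying primitive of `h` ("`∫_{i∞}^τ h`"), or `0` if `h` is not holomorphic with
strip decay. -/
noncomputable def prim0 (h : ℍ → ℂ) : ℍ → ℂ :=
  if hh : MDiff h ∧ StripDecay h then
    Classical.choose (exists_decaying_primitive h hh.1 hh.2) else 0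

theorem prim0_hasDerivH {h : ℍ → ℂ} (hh : MDiff h) (hd : StripDecay h) :
    HasDerivH (prim0 h) h := by
  unfold prim0
  rw [dif_pos ⟨hh, hd⟩]
  exact (Classical.choose_spec (exists_decaying_primitive h hh hd)).1

theorem prim0_stripDecay {h : ℍ → ℂ} (hh : MDiff h) (hd : StripDecay h) :
    StripDecay (prim0 h) := by
  unfold prim0
  rw [dif_pos ⟨hh, hd⟩]
  exact (Classical.choose_spec (exists_decaying_primitive h hh hd)).2

theorem prim0_unique {h : ℍ → ℂ} (hh : MDiff h) (hd : StripDecay h) {H : ℍ → ℂ}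
    (a : HasDerivH H h) (d : StripDecay H) : H = prim0 h :=
  a.unique (prim0_hasDerivH hh hd) d (prim0_stripDecay hh hd)

/-- A function is *good* if it is holomorphic on `ℍ` with exponential decay on vertical strips. -/
def Good (φ : ℍ → ℂ) : Prop := MDiff φ ∧ StripDecay φ

theorem mdiff_eval (P : Polynomial ℂ) : MDiff (fun τ : ℍ => P.eval (τ : ℂ)) := by
  rw [UpperHalfPlane.mdifferentiable_iff]
  intro z hz
  have h1 : DifferentiableAt ℂ (fun z : ℂ => P.eval z) z := P.differentiable z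
  refine (h1.congr_of_eventuallyEq ?_).differentiableWithinAt
  filter_upwards [isOpen_upperHalfPlaneSet.mem_nhds hz] with w hw
  simp [Function.comp, ofComplex_apply_of_im_pos hw]

theorem Good.mul_eval {φ : ℍ → ℂ} (hφ : Good φ) (P : Polynomial ℂ) :
    Good (fun τ => φ τ * P.eval (τ : ℂ)) :=
  ⟨hφ.1.mul (mdiff_eval P), hφ.2.mul_polynomial P⟩

theorem Good.add {φ ψ : ℍ → ℂ} (hφ : Good φ) (hψ : Good ψ) : Good (fun τ => φ τ + ψ τ) :=
  ⟨hφ.1.add hψ.1, hφ.2.add hψ.2⟩

theorem Good.const_mul {φ : ℍ → ℂ} (hφ : Good φ) (c : ℂ) : Good (fun τ => c * φ τ) :=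
  ⟨(mdifferentiable_const (c := c)).mul hφ.1, hφ.2.const_mul c⟩

/-- The Eichler integral `τ ↦ ∫_{i∞}^τ φ(z) P(z) dz`. -/
noncomputable def eI (φ : ℍ → ℂ) (P : Polynomial ℂ) : ℍ → ℂ :=
  prim0 (fun τ => φ τ * P.eval (τ : ℂ))

theorem eI_hasDerivH {φ : ℍ → ℂ} (hφ : Good φ) (P : Polynomial ℂ) :
    HasDerivH (eI φ P) (fun τ => φ τ * P.eval (τ : ℂ)) :=
  prim0_hasDerivH (hφ.mul_eval P).1 (hφ.mul_eval P).2

theorem eI_stripDecay {φ : ℍ → ℂ} (hφ : Good φ) (P : Polynomial ℂ) : StripDecay (eI φ P) :=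
  prim0_stripDecay (hφ.mul_eval P).1 (hφ.mul_eval P).2

/-- Characterisation of the Eichler integral. -/
theorem eI_unique {φ : ℍ → ℂ} (hφ : Good φ) (P : Polynomial ℂ) {H : ℍ → ℂ}
    (a : HasDerivH H (fun τ => φ τ * P.eval (τ : ℂ))) (d : StripDecay H) : H = eI φ P :=
  prim0_unique (hφ.mul_eval P).1 (hφ.mul_eval P).2 a d

theorem eI_add_poly {φ : ℍ → ℂ} (hφ : Good φ) (P Q : Polynomial ℂ) (τ : ℍ) :
    eI φ (P + Q) τ = eI φ P τ + eI φ Q τ := by
  have := eI_unique hφ (P + Q) (H := fun τ => eI φ P τ + eI φ Q τ)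
    (((eI_hasDerivH hφ P).add (eI_hasDerivH hφ Q)).congr_deriv fun τ => by
      simp [Polynomial.eval_add, mul_add])
    ((eI_stripDecay hφ P).add (eI_stripDecay hφ Q))
  exact (congrFun this τ).symm

theorem eI_smul_poly {φ : ℍ → ℂ} (hφ : Good φ) (c : ℂ) (P : Polynomial ℂ) (τ : ℍ) :
    eI φ (c • P) τ = c * eI φ P τ := by
  have := eI_unique hφ (c • P) (H := fun τ => c * eI φ P τ)
    (((eI_hasDerivH hφ P).const_mul c).congr_deriv fun τ => by
      simp [Polynomial.eval_smul]; ring)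
    ((eI_stripDecay hφ P).const_mul c)
  exact (congrFun this τ).symm

theorem eI_sum_poly {φ : ℍ → ℂ} (hφ : Good φ) {ι : Type*} (s : Finset ι)
    (P : ι → Polynomial ℂ) (τ : ℍ) :
    eI φ (∑ i ∈ s, P i) τ = ∑ i ∈ s, eI φ (P i) τ := by
  classical
  induction s using Finset.induction_on with
  | empty =>
    have := eI_smul_poly hφ 0 (0 : Polynomial ℂ) τ
    simpa using this
  | insert a s ha ih => rw [Finset.sum_insert ha, Finset.sum_insert ha, eI_add_poly hφ, ih]

theorem eI_add_fun {φ ψ : ℍ → ℂ} (hφ : Good φ) (hψ : Good ψ) (P : Polynomial ℂ) (τ : ℍ) :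
    eI (fun τ => φ τ + ψ τ) P τ = eI φ P τ + eI ψ P τ := by
  have := eI_unique (hφ.add hψ) P (H := fun τ => eI φ P τ + eI ψ P τ)
    (((eI_hasDerivH hφ P).add (eI_hasDerivH hψ P)).congr_deriv fun τ => by ring)
    ((eI_stripDecay hφ P).add (eI_stripDecay hψ P))
  exact (congrFun this τ).symm

theorem eI_smul_fun {φ : ℍ → ℂ} (hφ : Good φ) (c : ℂ) (P : Polynomial ℂ) (τ : ℍ) :
    eI (fun τ => c * φ τ) P τ = c * eI φ P τ := by
  have := eI_unique (hφ.const_mul c) P (H := fun τ => c * eI φ P τ)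
    (((eI_hasDerivH hφ P).const_mul c).congr_deriv fun τ => by ring)
    ((eI_stripDecay hφ P).const_mul c)
  exact (congrFun this τ).symm

end Fermat.Agent.S22
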