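import Fermat.Agent.S22.Prim

set_option autoImplicit false

namespace Fermat.Agent.S22

open Complex Set Metric Filter Topology
open UpperHalfPlane hiding I
open scoped Manifold

/-- Exponential decay of a function on the upper half plane as `im τ → ∞`, uniformly on
vertical strips of bounded width. -/
def StripDecay (G : ℍ → ℂ) : Prop :=
  ∀ M : ℝ, ∃ C c A : ℝ, 0 < c ∧
    ∀ τ : ℍ, A ≤ τ.im → |τ.re| ≤ M → ‖G τ‖ ≤ C * Real.exp (-c * τ.im)

theorem StripDecay.exists_pos {G : ℍ → ℂ} (hG : StripDecay G) (M : ℝ) :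
    ∃ C c A : ℝ, 0 ≤ C ∧ 0 < c ∧ 0 < A ∧
      ∀ τ : ℍ, A ≤ τ.im → |τ.re| ≤ M → ‖G τ‖ ≤ C * Real.exp (-c * τ.im) := by
  obtain ⟨C, c, A, hc, h⟩ := hG M
  refine ⟨max C 0, c, max A 1, le_max_right _ _, hc, lt_of_lt_of_le one_pos (le_max_right _ _),
    fun τ hτ hM => (h τ (le_trans (le_max_left _ _) hτ) hM).trans ?_⟩
  exact mul_le_mul_of_nonneg_right (le_max_left _ _) (Real.exp_pos _).le

theorem StripDecay.zero : StripDecay (fun _ => 0) := fun _ =>
  ⟨0, 1, 0, one_pos, fun τ _ _ => by simp⟩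

theorem StripDecay.add {G₁ G₂ : ℍ → ℂ} (h₁ : StripDecay G₁) (h₂ : StripDecay G₂) :
    StripDecay (fun τ => G₁ τ + G₂ τ) := by
  intro M
  obtain ⟨C₁, c₁, A₁, hC₁, hc₁, -, H₁⟩ := h₁.exists_pos M
  obtain ⟨C₂, c₂, A₂, hC₂, hc₂, -, H₂⟩ := h₂.exists_pos M
  refine ⟨C₁ + C₂, min c₁ c₂, max A₁ A₂, lt_min hc₁ hc₂, fun τ hτ hM => ?_⟩
  have e₁ : Real.exp (-c₁ * τ.im) ≤ Real.exp (-(min c₁ c₂) * τ.im) := by
    apply Real.exp_le_exp.mpr
    have := mul_le_mul_of_nonneg_right (min_le_left c₁ c₂) τ.im_pos.le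
    linarith
  have e₂ : Real.exp (-c₂ * τ.im) ≤ Real.exp (-(min c₁ c₂) * τ.im) := by
    apply Real.exp_le_exp.mpr
    have := mul_le_mul_of_nonneg_right (min_le_right c₁ c₂) τ.im_pos.le
    linarith
  calc ‖G₁ τ + G₂ τ‖ ≤ ‖G₁ τ‖ + ‖G₂ τ‖ := norm_add_le _ _
    _ ≤ C₁ * Real.exp (-c₁ * τ.im) + C₂ * Real.exp (-c₂ * τ.im) :=
        add_le_add (H₁ τ (le_trans (le_max_left _ _) hτ) hM)
          (H₂ τ (le_trans (le_max_right _ _) hτ) hM)
    _ ≤ C₁ * Real.exp (-(min c₁ c₂) * τ.im) + C₂ * Real.exp (-(min c₁ c₂) * τ.im) :=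
        add_le_add (mul_le_mul_of_nonneg_left e₁ hC₁) (mul_le_mul_of_nonneg_left e₂ hC₂)
    _ = (C₁ + C₂) * Real.exp (-(min c₁ c₂) * τ.im) := by ring

theorem StripDecay.const_mul {G : ℍ → ℂ} (h : StripDecay G) (a : ℂ) :
    StripDecay (fun τ => a * G τ) := by
  intro M
  obtain ⟨C, c, A, hc, H⟩ := h M
  refine ⟨‖a‖ * C, c, A, hc, fun τ hτ hM => ?_⟩
  rw [norm_mul, mul_assoc]
  exact mul_le_mul_of_nonneg_left (H τ hτ hM) (norm_nonneg _)

theorem StripDecay.mul_const {G : ℍ → ℂ} (h : StripDecay G) (a : ℂ) :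
    StripDecay (fun τ => G τ * a) := by
  simpa [mul_comm] using h.const_mul a

theorem StripDecay.neg {G : ℍ → ℂ} (h : StripDecay G) : StripDecay (fun τ => -G τ) := by
  simpa using h.const_mul (-1)

theorem StripDecay.sub {G₁ G₂ : ℍ → ℂ} (h₁ : StripDecay G₁) (h₂ : StripDecay G₂) :
    StripDecay (fun τ => G₁ τ - G₂ τ) := by
  simpa [sub_eq_add_neg] using h₁.add h₂.neg

theorem StripDecay.sum {ι : Type*} (s : Finset ι) {G : ι → ℍ → ℂ}
    (h : ∀ i ∈ s, StripDecay (G i)) : StripDecay (fun τ => ∑ i ∈ s, G i τ) := by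
  classical
  induction s using Finset.induction_on with
  | empty => simpa using StripDecay.zero
  | insert a s ha ih =>
    have h1 := (h a (Finset.mem_insert_self a s)).add
      (ih fun i hi => h i (Finset.mem_insert_of_mem hi))
    simpa [Finset.sum_insert ha] using h1

/-- A constant with strip decay is zero. -/
theorem StripDecay.const_eq_zero {a : ℂ} (h : StripDecay (fun _ => a)) : a = 0 := by
  obtain ⟨C, c, A, hC, hc, hA, H⟩ := h.exists_pos 0
  by_contra ha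
  have hpos : 0 < ‖a‖ := norm_pos_iff.mpr ha
  -- choose y large with C * exp (-c y) < ‖a‖
  have htend : Tendsto (fun y : ℝ => C * Real.exp (-c * y)) atTop (𝓝 (C * 0)) := by
    apply Tendsto.const_mul
    have : Tendsto (fun y : ℝ => -c * y) atTop atBot := by
      have := (tendsto_id (α := ℝ) (x := atTop)).const_mul_atTop_of_neg (neg_neg_of_pos hc)
      simpa using this
    exact Real.tendsto_exp_atBot.comp this
  rw [mul_zero] at htend
  have hev := (htend.eventually (gt_mem_nhds hpos)).and (eventually_ge_atTop A)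
  obtain ⟨y, hy1, hy2⟩ := hev.exists
  have hy0 : 0 < y := lt_of_lt_of_le hA hy2
  have := H ⟨⟨0, y⟩, hy0⟩ hy2 (by simp [UpperHalfPlane.re])
  simp only [UpperHalfPlane.im] at this
  linarith

/-- Multiplying by the coordinate function preserves strip decay. -/
theorem StripDecay.mul_coe {G : ℍ → ℂ} (h : StripDecay G) :
    StripDecay (fun τ => G τ * (τ : ℂ)) := by
  intro M
  obtain ⟨C, c, A, hC, hc, hA, H⟩ := h.exists_pos M
  refine ⟨C * (|M| + 2 / c), c / 2, A, by positivity, fun τ hτ hM => ?_⟩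
  have hy : 0 < τ.im := τ.im_pos
  have h1 : ‖(τ : ℂ)‖ ≤ |M| + τ.im := by
    calc ‖(τ : ℂ)‖ ≤ |(τ : ℂ).re| + |(τ : ℂ).im| := Complex.norm_le_abs_re_add_abs_im _
      _ ≤ |M| + τ.im := by
        have : |(τ : ℂ).im| = τ.im := abs_of_pos hy
        have h2 : |(τ : ℂ).re| ≤ |M| := hM.trans (le_abs_self M)
        linarith
  have h2 : τ.im ≤ 2 / c * Real.exp (c / 2 * τ.im) := by
    have := Real.add_one_le_exp (c / 2 * τ.im)
    have h3 : c / 2 * τ.im ≤ Real.exp (c / 2 * τ.im) := by linarith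
    have h4 : τ.im = 2 / c * (c / 2 * τ.im) := by field_simp
    calc τ.im = 2 / c * (c / 2 * τ.im) := h4
      _ ≤ 2 / c * Real.exp (c / 2 * τ.im) := mul_le_mul_of_nonneg_left h3 (by positivity)
  have h3 : |M| ≤ |M| * Real.exp (c / 2 * τ.im) := by
    have : (1 : ℝ) ≤ Real.exp (c / 2 * τ.im) := Real.one_le_exp (by positivity)
    nlinarith [abs_nonneg M]
  have h4 : ‖(τ : ℂ)‖ ≤ (|M| + 2 / c) * Real.exp (c / 2 * τ.im) := by
    calc ‖(τ : ℂ)‖ ≤ |M| + τ.im := h1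
      _ ≤ |M| * Real.exp (c / 2 * τ.im) + 2 / c * Real.exp (c / 2 * τ.im) := add_le_add h3 h2
      _ = _ := by ring
  have h5 : Real.exp (-c * τ.im) * Real.exp (c / 2 * τ.im) = Real.exp (-(c / 2) * τ.im) := by
    rw [← Real.exp_add]; congr 1; ring
  calc ‖G τ * (τ : ℂ)‖ = ‖G τ‖ * ‖(τ : ℂ)‖ := norm_mul _ _
    _ ≤ (C * Real.exp (-c * τ.im)) * ((|M| + 2 / c) * Real.exp (c / 2 * τ.im)) :=
        mul_le_mul (H τ hτ hM) h4 (norm_nonneg _) (by positivity)
    _ = C * (|M| + 2 / c) * (Real.exp (-c * τ.im) * Real.exp (c / 2 * τ.im)) := by ring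
    _ = C * (|M| + 2 / c) * Real.exp (-(c / 2) * τ.im) := by rw [h5]

theorem StripDecay.mul_coe_pow {G : ℍ → ℂ} (h : StripDecay G) (n : ℕ) :
    StripDecay (fun τ => G τ * (τ : ℂ) ^ n) := by
  induction n with
  | zero => simpa using h
  | succ n ih =>
    have h1 := ih.mul_coe
    have h2 : (fun τ : ℍ => G τ * (τ : ℂ) ^ (n + 1)) = fun τ => G τ * (τ : ℂ) ^ n * (τ : ℂ) := by
      funext τ; ring
    rw [h2]; exact h1

/-- Multiplying by a polynomial preserves strip decay. -/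
theorem StripDecay.mul_polynomial {G : ℍ → ℂ} (h : StripDecay G) (P : Polynomial ℂ) :
    StripDecay (fun τ => G τ * P.eval (τ : ℂ)) := by
  have : (fun τ : ℍ => G τ * P.eval (τ : ℂ)) =
      fun τ => ∑ i ∈ Finset.range (P.natDegree + 1), P.coeff i * (G τ * (τ : ℂ) ^ i) := by
    funext τ
    rw [Polynomial.eval_eq_sum_range, Finset.mul_sum]
    exact Finset.sum_congr rfl fun i _ => by ring
  rw [this]
  exact StripDecay.sum _ fun i _ => (h.mul_coe_pow i).const_mul _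

theorem StripDecay.of_isBigO {G : ℍ → ℂ} {c : ℝ} (hc : 0 < c)
    (h : G =O[atImInfty] fun τ => Real.exp (-c * τ.im)) : StripDecay G := by
  obtain ⟨C, hC⟩ := h.bound
  obtain ⟨A, hA⟩ := (atImInfty_mem _).mp hC
  intro M
  refine ⟨C, c, A, hc, fun τ hτ _ => ?_⟩
  have := hA τ hτ
  simpa [Real.norm_eq_abs, abs_of_pos (Real.exp_pos _)] using this

end Fermat.Agent.S22
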