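import Fermat.Agent.S22.Decay

set_option autoImplicit false

namespace Fermat.Agent.S22

open Complex Set Metric Filter Topology
open UpperHalfPlane hiding I
open scoped Manifold

/-! ### The action of upper triangular matrices -/

theorem coe_smul_upper {g : GL (Fin 2) ℝ} (hdet : 0 < g.val.det) (hg : g 1 0 = 0) (τ : ℍ) :
    ((g • τ : ℍ) : ℂ) = ((g 0 0 : ℝ) * (τ : ℂ) + (g 0 1 : ℝ)) / (g 1 1 : ℝ) := by
  rw [coe_smul_of_det_pos (by simpa using hdet)]
  simp [num, denom, hg]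

theorem upper_ratio_pos {g : GL (Fin 2) ℝ} (hdet : 0 < g.val.det) (hg : g 1 0 = 0) :
    0 < g 0 0 / g 1 1 := by
  have h1 : g.val.det = g 0 0 * g 1 1 := by
    rw [Matrix.det_fin_two]
    have : (g : Matrix (Fin 2) (Fin 2) ℝ) 1 0 = 0 := hg
    rw [this]; ring
  rw [h1] at hdet
  have hne : g 1 1 ≠ 0 := by
    rintro h0; rw [h0, mul_zero] at hdet; exact lt_irrefl _ hdet
  have : g 0 0 / g 1 1 = (g 0 0 * g 1 1) / (g 1 1) ^ 2 := by field_simp
  rw [this]
  exact div_pos hdet (by positivity)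

theorem im_smul_upper {g : GL (Fin 2) ℝ} (hdet : 0 < g.val.det) (hg : g 1 0 = 0) (τ : ℍ) :
    (g • τ).im = g 0 0 / g 1 1 * τ.im := by
  have h := congrArg Complex.im (coe_smul_upper hdet hg τ)
  rw [Complex.div_ofReal_im] at h
  simp only [add_im, mul_im, ofReal_re, ofReal_im, zero_mul, add_zero] at h
  rw [UpperHalfPlane.coe_im, UpperHalfPlane.coe_im] at h
  rw [h]; ring

theorem re_smul_upper {g : GL (Fin 2) ℝ} (hdet : 0 < g.val.det) (hg : g 1 0 = 0) (τ : ℍ) :
    (g • τ).re = g 0 0 / g 1 1 * τ.re + g 0 1 / g 1 1 := by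
  have h := congrArg Complex.re (coe_smul_upper hdet hg τ)
  rw [Complex.div_ofReal_re] at h
  simp only [add_re, mul_re, ofReal_re, ofReal_im, zero_mul, sub_zero] at h
  rw [UpperHalfPlane.coe_re, UpperHalfPlane.coe_re] at h
  rw [h]; ring

/-- Strip decay is preserved by the action of upper triangular matrices of positive
determinant. -/
theorem StripDecay.comp_smul {G : ℍ → ℂ} (h : StripDecay G) {g : GL (Fin 2) ℝ}
    (hdet : 0 < g.val.det) (hg : g 1 0 = 0) : StripDecay (fun τ => G (g • τ)) := by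
  intro M
  set r := g 0 0 / g 1 1 with hr
  have hrpos : 0 < r := upper_ratio_pos hdet hg
  obtain ⟨C, c, A, hC, hc, hA, H⟩ := h.exists_pos (r * |M| + |g 0 1 / g 1 1|)
  refine ⟨C, c * r, A / r, by positivity, fun τ hτ hM => ?_⟩
  have him : (g • τ).im = r * τ.im := im_smul_upper hdet hg τ
  have hre : (g • τ).re = r * τ.re + g 0 1 / g 1 1 := re_smul_upper hdet hg τ
  have h1 : A ≤ (g • τ).im := by
    rw [him]
    have := (div_le_iff₀ hrpos).mp hτ
    linarith
  have h2 : |(g • τ).re| ≤ r * |M| + |g 0 1 / g 1 1| := by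
    rw [hre]
    refine (abs_add_le _ _).trans (add_le_add ?_ le_rfl)
    rw [abs_mul, abs_of_pos hrpos]
    exact mul_le_mul_of_nonneg_left (hM.trans (le_abs_self M)) hrpos.le
  have := H (g • τ) h1 h2
  rw [him] at this
  have e : -c * (r * τ.im) = -(c * r) * τ.im := by ring
  rwa [e] at this

/-! ### Complex derivatives of functions on the upper half plane -/

/-- `HasDerivH H h` says that `H : ℍ → ℂ` is holomorphic with derivative `h`. -/
def HasDerivH (H h : ℍ → ℂ) : Prop :=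
  ∀ τ : ℍ, HasDerivAt (fun z : ℂ => H (ofComplex z)) (h τ) (τ : ℂ)

theorem HasDerivH.add {H₁ h₁ H₂ h₂ : ℍ → ℂ} (a : HasDerivH H₁ h₁) (b : HasDerivH H₂ h₂) :
    HasDerivH (fun τ => H₁ τ + H₂ τ) (fun τ => h₁ τ + h₂ τ) := fun τ => (a τ).add (b τ)

theorem HasDerivH.sub {H₁ h₁ H₂ h₂ : ℍ → ℂ} (a : HasDerivH H₁ h₁) (b : HasDerivH H₂ h₂) :
    HasDerivH (fun τ => H₁ τ - H₂ τ) (fun τ => h₁ τ - h₂ τ) := fun τ => (a τ).sub (b τ)

theorem HasDerivH.const_mul {H h : ℍ → ℂ} (a : HasDerivH H h) (c : ℂ) :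
    HasDerivH (fun τ => c * H τ) (fun τ => c * h τ) := fun τ => (a τ).const_mul c

theorem HasDerivH.sub_const {H h : ℍ → ℂ} (a : HasDerivH H h) (c : ℂ) :
    HasDerivH (fun τ => H τ - c) h := fun τ => (a τ).sub_const c

theorem HasDerivH.add_const {H h : ℍ → ℂ} (a : HasDerivH H h) (c : ℂ) :
    HasDerivH (fun τ => H τ + c) h := fun τ => (a τ).add_const c

theorem HasDerivH.sum {ι : Type*} (s : Finset ι) {H h : ι → ℍ → ℂ}
    (a : ∀ i ∈ s, HasDerivH (H i) (h i)) :
    HasDerivH (fun τ => ∑ i ∈ s, H i τ) (fun τ => ∑ i ∈ s, h i τ) := fun τ =>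
  HasDerivAt.fun_sum fun i hi => a i hi τ

theorem HasDerivH.congr_deriv {H h h' : ℍ → ℂ} (a : HasDerivH H h) (e : ∀ τ, h τ = h' τ) :
    HasDerivH H h' := fun τ => e τ ▸ a τ

/-- Chain rule for the Möbius action. -/
theorem HasDerivH.comp_smul {H h : ℍ → ℂ} (a : HasDerivH H h) {g : GL (Fin 2) ℝ}
    (hdet : 0 < g.val.det) :
    HasDerivH (fun τ => H (g • τ))
      (fun τ => h (g • τ) * ((g.val.det : ℝ) / denom g τ ^ 2)) := by
  intro τ
  have h2 := (hasStrictDerivAt_smul hdet τ).hasDerivAt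
  have h1 : HasDerivAt (fun z : ℂ => H (ofComplex z)) (h (g • τ))
      ((fun z : ℂ => ((g • ofComplex z : ℍ) : ℂ)) (τ : ℂ)) := by
    simpa [ofComplex_apply] using a (g • τ)
  have h3 := h1.comp (τ : ℂ) h2
  simpa [Function.comp_def, ofComplex_apply] using h3

/-- Product rule with a polynomial. -/
theorem HasDerivH.mul_eval {H h : ℍ → ℂ} (a : HasDerivH H h) (P : Polynomial ℂ) :
    HasDerivH (fun τ => H τ * P.eval (τ : ℂ))
      (fun τ => h τ * P.eval (τ : ℂ) + H τ * P.derivative.eval (τ : ℂ)) := by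
  intro τ
  have h1 : HasDerivAt (fun z : ℂ => H (ofComplex z) * P.eval z)
      (h τ * P.eval (τ : ℂ) + H (ofComplex (τ : ℂ)) * P.derivative.eval (τ : ℂ)) (τ : ℂ) :=
    (a τ).mul (P.hasDerivAt (τ : ℂ))
  rw [ofComplex_apply] at h1
  refine h1.congr_of_eventuallyEq ?_
  filter_upwards [isOpen_upperHalfPlaneSet.mem_nhds τ.im_pos] with z hz
  rw [ofComplex_apply_of_im_pos hz]

/-- A function on `ℍ` with vanishing derivative is constant. -/
theorem HasDerivH.eq_of_deriv_zero {H : ℍ → ℂ} (a : HasDerivH H fun _ => 0) (τ τ' : ℍ) :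
    H τ = H τ' := by
  have key := IsOpen.is_const_of_deriv_eq_zero isOpen_upperHalfPlaneSet
    (convex_halfSpace_im_gt 0).isPreconnected
    (f := fun z : ℂ => H (ofComplex z))
    (fun z hz => (a ⟨z, hz⟩).differentiableAt.differentiableWithinAt)
    (fun z hz => (a ⟨z, hz⟩).deriv) τ.im_pos τ'.im_pos
  simpa [ofComplex_apply] using key

theorem HasDerivH.mdifferentiable {H h : ℍ → ℂ} (a : HasDerivH H h) : MDiff H := by
  rw [UpperHalfPlane.mdifferentiable_iff]
  intro z hz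
  exact (a ⟨z, hz⟩).differentiableAt.differentiableWithinAt

/-- Two strip-decaying primitives of the same function coincide. -/
theorem HasDerivH.unique {H₁ H₂ h : ℍ → ℂ} (a₁ : HasDerivH H₁ h) (a₂ : HasDerivH H₂ h)
    (d₁ : StripDecay H₁) (d₂ : StripDecay H₂) : H₁ = H₂ := by
  have hz : HasDerivH (fun τ => H₁ τ - H₂ τ) (fun _ => 0) :=
    (a₁.sub a₂).congr_deriv fun τ => sub_self _
  have hc : ∀ τ, H₁ τ - H₂ τ = H₁ UpperHalfPlane.I - H₂ UpperHalfPlane.I := fun τ =>
    hz.eq_of_deriv_zero τ UpperHalfPlane.I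
  have hd : StripDecay (fun _ : ℍ => H₁ UpperHalfPlane.I - H₂ UpperHalfPlane.I) := by
    have := d₁.sub d₂
    simpa only [hc] using this
  funext τ
  have := hc τ
  rw [hd.const_eq_zero] at this
  exact sub_eq_zero.mp this

end Fermat.Agent.S22
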