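import Fermat.Agent.S22.DecayPrim

set_option autoImplicit false

namespace Fermat.Agent.S22

open Complex Set Metric Filter Topology
open UpperHalfPlane hiding I
open scoped Manifold

/-! ### Existence of decaying primitives -/

theorem norm_sub_le_of_strip {F k : ℂ → ℂ}
    (hF : ∀ z ∈ upperHalfPlaneSet, HasDerivAt F (k z) z)
    {M C c A : ℝ} (hC : 0 ≤ C) (hc : 0 < c) (hA : 0 < A)
    (H : ∀ z : ℂ, A ≤ z.im → |z.re| ≤ M → ‖k z‖ ≤ C * Real.exp (-c * z.im))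
    {y : ℝ} (hy : A ≤ y) {z z' : ℂ} (hz : y ≤ z.im) (hzM : |z.re| ≤ M)
    (hz' : y ≤ z'.im) (hz'M : |z'.re| ≤ M) :
    ‖F z' - F z‖ ≤ C * Real.exp (-c * y) * ‖z' - z‖ := by
  set S : Set ℂ := {w | y ≤ w.im} ∩ ({w | -M ≤ w.re} ∩ {w | w.re ≤ M}) with hS
  have hconv : Convex ℝ S := (convex_halfSpace_im_ge y).inter
    ((convex_halfSpace_re_ge (-M)).inter (convex_halfSpace_re_le M))
  have hSpos : ∀ w ∈ S, 0 < w.im := fun w hw => lt_of_lt_of_le (lt_of_lt_of_le hA hy) hw.1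
  have hderiv : ∀ w ∈ S, HasDerivWithinAt F (k w) S w := fun w hw =>
    (hF w (hSpos w hw)).hasDerivWithinAt
  have hbound : ∀ w ∈ S, ‖k w‖ ≤ C * Real.exp (-c * y) := by
    intro w hw
    have h1 := H w (le_trans hy hw.1) (abs_le.mpr ⟨hw.2.1, hw.2.2⟩)
    refine h1.trans (mul_le_mul_of_nonneg_left (Real.exp_le_exp.mpr ?_) hC)
    have : y ≤ w.im := hw.1
    nlinarith
  have hzS : z ∈ S := ⟨hz, (abs_le.mp hzM).1, (abs_le.mp hzM).2⟩
  have hz'S : z' ∈ S := ⟨hz', (abs_le.mp hz'M).1, (abs_le.mp hz'M).2⟩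
  exact hconv.norm_image_sub_le_of_norm_hasDerivWithin_le hderiv hbound hzS hz'S

theorem norm_sub_le_vertical {F k : ℂ → ℂ}
    (hF : ∀ z ∈ upperHalfPlaneSet, HasDerivAt F (k z) z)
    {M C c A : ℝ} (hC : 0 ≤ C) (hc : 0 < c) (hA : 0 < A)
    (H : ∀ z : ℂ, A ≤ z.im → |z.re| ≤ M → ‖k z‖ ≤ C * Real.exp (-c * z.im))
    {x y y' : ℝ} (hx : |x| ≤ M) (hy : A ≤ y) (hyy' : y ≤ y') :
    ‖F (x + y' * I) - F (x + y * I)‖ ≤ C / c * Real.exp (-c * y) := by
  set f : ℝ → ℂ := fun t => F (x + t * I) - F (x + y * I) with hf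
  set f' : ℝ → ℂ := fun t => I • k (x + t * I) with hf'
  set B : ℝ → ℝ := fun t => C / c * (Real.exp (-c * y) - Real.exp (-c * t)) with hB
  set B' : ℝ → ℝ := fun t => C * Real.exp (-c * t) with hB'
  have hpos : ∀ t, y ≤ t → 0 < t := fun t ht => lt_of_lt_of_le (lt_of_lt_of_le hA hy) ht
  have him : ∀ t : ℝ, ((x : ℂ) + t * I).im = t := fun t => by simp
  have hre : ∀ t : ℝ, ((x : ℂ) + t * I).re = x := fun t => by simp
  have hder : ∀ t, y ≤ t → HasDerivAt f (f' t) t := by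
    intro t ht
    have hmem : ((x : ℂ) + t * I) ∈ upperHalfPlaneSet := by
      show 0 < ((x : ℂ) + t * I).im
      rw [him]; exact hpos t ht
    have h1 : HasDerivAt (fun s : ℝ => (x : ℂ) + s * I) I t := by
      have h0 : HasDerivAt (fun s : ℝ => (s : ℂ)) 1 t := (hasDerivAt_id t).ofReal_comp
      simpa using (h0.mul_const I).const_add (x : ℂ)
    have h2 : HasDerivAt (fun s : ℝ => F ((x : ℂ) + s * I)) (I • k (x + t * I)) t :=
      (hF _ hmem).scomp t h1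
    exact h2.sub_const _
  have hcont : ContinuousOn f (Icc y y') := fun t ht =>
    (hder t ht.1).continuousAt.continuousWithinAt
  have hder' : ∀ t ∈ Ico y y', HasDerivWithinAt f (f' t) (Ici t) t := fun t ht =>
    (hder t ht.1).hasDerivWithinAt
  have ha : ‖f y‖ ≤ B y := by simp [hf, hB]
  have hBd : ∀ t, HasDerivAt B (B' t) t := by
    intro t
    have h1 : HasDerivAt (fun t : ℝ => Real.exp (-c * t)) (Real.exp (-c * t) * (-c)) t := by
      have := ((hasDerivAt_id t).const_mul (-c)).exp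
      simpa using this
    have h2 := (h1.const_sub (Real.exp (-c * y))).const_mul (C / c)
    have e : C / c * -(Real.exp (-c * t) * -c) = B' t := by
      simp only [hB']; field_simp
    rw [e] at h2
    exact h2
  have hbound : ∀ t ∈ Ico y y', ‖f' t‖ ≤ B' t := by
    intro t ht
    simp only [hf', hB', norm_smul, Complex.norm_I, one_mul]
    have := H (x + t * I) (by rw [him]; exact le_trans hy ht.1) (by rw [hre]; exact hx)
    rwa [him] at this
  have key := image_norm_le_of_norm_deriv_right_le_deriv_boundary hcont hder' ha hBd hbound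
    (right_mem_Icc.mpr hyy')
  have hfin : B y' ≤ C / c * Real.exp (-c * y) := by
    simp only [hB]
    have : 0 ≤ C / c := div_nonneg hC hc.le
    nlinarith [Real.exp_pos (-c * y'), Real.exp_pos (-c * y)]
  exact key.trans hfin

/-- A holomorphic function on `ℍ` with strip decay has a strip-decaying primitive. -/
theorem exists_decaying_primitive (h : ℍ → ℂ) (hh : MDiff h) (hd : StripDecay h) :
    ∃ H : ℍ → ℂ, HasDerivH H h ∧ StripDecay H := by
  set k : ℂ → ℂ := fun z => h (ofComplex z) with hk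
  have hdiff : DifferentiableOn ℂ k upperHalfPlaneSet := UpperHalfPlane.mdifferentiable_iff.mp hh
  obtain ⟨F, hF⟩ := exists_primitive_upperHalfPlaneSet k hdiff
  -- strip bounds for `k`
  have hstrip : ∀ M : ℝ, ∃ C c A : ℝ, 0 ≤ C ∧ 0 < c ∧ 0 < A ∧
      ∀ z : ℂ, A ≤ z.im → |z.re| ≤ M → ‖k z‖ ≤ C * Real.exp (-c * z.im) := by
    intro M
    obtain ⟨C, c, A, hC, hc, hA, H⟩ := hd.exists_pos M
    refine ⟨C, c, A, hC, hc, hA, fun z hz hzM => ?_⟩
    have hzpos : 0 < z.im := lt_of_lt_of_le hA hz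
    have := H ⟨z, hzpos⟩ hz hzM
    simpa [hk, ofComplex_apply_of_im_pos hzpos] using this
  -- the limit along the imaginary axis
  obtain ⟨C₀, c₀, A₀, hC₀, hc₀, hA₀, H₀⟩ := hstrip 0
  set a : ℕ → ℂ := fun n => F ((0 : ℝ) + ((A₀ + n : ℝ) : ℂ) * I) with ha
  have hvert₀ : ∀ y y' : ℝ, A₀ ≤ y → y ≤ y' →
      ‖F ((0 : ℝ) + (y' : ℂ) * I) - F ((0 : ℝ) + (y : ℂ) * I)‖ ≤ C₀ / c₀ * Real.exp (-c₀ * y) :=
    fun y y' hy hyy' => norm_sub_le_vertical hF hC₀ hc₀ hA₀ H₀ (by simp) hy hyy'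
  have hb0 : Tendsto (fun N : ℕ => C₀ / c₀ * Real.exp (-c₀ * (A₀ + N))) atTop (𝓝 0) := by
    have h1 : Tendsto (fun N : ℕ => -c₀ * (A₀ + (N : ℝ))) atTop atBot := by
      have h2 : Tendsto (fun N : ℕ => A₀ + (N : ℝ)) atTop atTop :=
        tendsto_atTop_add_const_left _ _ tendsto_natCast_atTop_atTop
      exact h2.const_mul_atTop_of_neg (neg_neg_of_pos hc₀)
    have h3 := (Real.tendsto_exp_atBot.comp h1).const_mul (C₀ / c₀)
    simpa using h3
  have hcauchy : CauchySeq a := by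
    refine cauchySeq_of_le_tendsto_0 (fun N : ℕ => C₀ / c₀ * Real.exp (-c₀ * (A₀ + N))) ?_ hb0
    intro n m N hn hm
    have hmono : ∀ p : ℕ, N ≤ p →
        C₀ / c₀ * Real.exp (-c₀ * (A₀ + p)) ≤ C₀ / c₀ * Real.exp (-c₀ * (A₀ + N)) := by
      intro p hp
      refine mul_le_mul_of_nonneg_left (Real.exp_le_exp.mpr ?_) (div_nonneg hC₀ hc₀.le)
      have : (N : ℝ) ≤ p := by exact_mod_cast hp
      nlinarith
    rw [dist_eq_norm]
    rcases le_total n m with hnm | hnm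
    · have h1 := hvert₀ (A₀ + n) (A₀ + m) (by linarith [(Nat.cast_nonneg n : (0 : ℝ) ≤ n)])
        (by have : (n : ℝ) ≤ m := by exact_mod_cast hnm
            linarith)
      rw [norm_sub_rev]
      exact h1.trans (hmono n hn)
    · have h1 := hvert₀ (A₀ + m) (A₀ + n) (by linarith [(Nat.cast_nonneg m : (0 : ℝ) ≤ m)])
        (by have : (m : ℝ) ≤ n := by exact_mod_cast hnm
            linarith)
      exact h1.trans (hmono m hm)
  obtain ⟨Λ, hΛ⟩ := cauchySeq_tendsto_of_complete hcauchy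
  -- estimate on the imaginary axis
  have haxis : ∀ y : ℝ, A₀ ≤ y →
      ‖F ((0 : ℝ) + (y : ℂ) * I) - Λ‖ ≤ C₀ / c₀ * Real.exp (-c₀ * y) := by
    intro y hy
    have ht : Tendsto (fun n : ℕ => ‖a n - F ((0 : ℝ) + (y : ℂ) * I)‖) atTop
        (𝓝 ‖Λ - F ((0 : ℝ) + (y : ℂ) * I)‖) := (hΛ.sub_const _).norm
    rw [norm_sub_rev]
    refine le_of_tendsto ht ?_
    obtain ⟨n₀, hn₀⟩ := exists_nat_ge (y - A₀)
    filter_upwards [eventually_ge_atTop n₀] with n hn
    have hn' : (n₀ : ℝ) ≤ n := by exact_mod_cast hn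
    exact hvert₀ y (A₀ + n) hy (by linarith)
  refine ⟨fun τ => F (τ : ℂ) - Λ, ?_, ?_⟩
  · intro τ
    have h1 : HasDerivAt (fun z : ℂ => F z - Λ) (k (τ : ℂ)) (τ : ℂ) :=
      (hF _ τ.im_pos).sub_const Λ
    have h2 : k (τ : ℂ) = h τ := by simp [hk, ofComplex_apply]
    rw [h2] at h1
    refine h1.congr_of_eventuallyEq ?_
    filter_upwards [isOpen_upperHalfPlaneSet.mem_nhds τ.im_pos] with z hz
    rw [ofComplex_apply_of_im_pos hz]
  · intro M
    obtain ⟨C₁, c₁, A₁, hC₁, hc₁, hA₁, H₁⟩ := hstrip (max M 0)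
    refine ⟨C₁ * max M 0 + C₀ / c₀, min c₁ c₀, max A₁ A₀, lt_min hc₁ hc₀, fun τ hτ hM => ?_⟩
    set y := τ.im with hy
    have hy1 : A₁ ≤ y := le_trans (le_max_left _ _) hτ
    have hy0 : A₀ ≤ y := le_trans (le_max_right _ _) hτ
    have hypos : 0 < y := τ.im_pos
    have hτim : (τ : ℂ).im = y := rfl
    have hτre : (τ : ℂ).re = τ.re := rfl
    have hhor : ‖F (τ : ℂ) - F ((0 : ℝ) + (y : ℂ) * I)‖ ≤
        C₁ * Real.exp (-c₁ * y) * ‖(τ : ℂ) - ((0 : ℝ) + (y : ℂ) * I)‖ := by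
      refine norm_sub_le_of_strip hF hC₁ hc₁ hA₁ H₁ hy1 (z := (0 : ℝ) + (y : ℂ) * I)
        (z' := (τ : ℂ)) (by simp) (by simp) (by rw [hτim]) ?_
      rw [hτre]; exact hM.trans (le_max_left _ _)
    have hnorm : ‖(τ : ℂ) - ((0 : ℝ) + (y : ℂ) * I)‖ ≤ max M 0 := by
      have : (τ : ℂ) - ((0 : ℝ) + (y : ℂ) * I) = ((τ.re : ℝ) : ℂ) := by
        apply Complex.ext <;> simp [hy]
      rw [this, Complex.norm_real, Real.norm_eq_abs]
      exact hM.trans (le_max_left _ _)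
    have e₁ : Real.exp (-c₁ * y) ≤ Real.exp (-(min c₁ c₀) * y) := by
      apply Real.exp_le_exp.mpr
      have := mul_le_mul_of_nonneg_right (min_le_left c₁ c₀) hypos.le
      linarith
    have e₀ : Real.exp (-c₀ * y) ≤ Real.exp (-(min c₁ c₀) * y) := by
      apply Real.exp_le_exp.mpr
      have := mul_le_mul_of_nonneg_right (min_le_right c₁ c₀) hypos.le
      linarith
    have hmax : (0 : ℝ) ≤ max M 0 := le_max_right _ _
    calc ‖F (τ : ℂ) - Λ‖
        = ‖(F (τ : ℂ) - F ((0 : ℝ) + (y : ℂ) * I)) + (F ((0 : ℝ) + (y : ℂ) * I) - Λ)‖ := by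
          congr 1; ring
      _ ≤ ‖F (τ : ℂ) - F ((0 : ℝ) + (y : ℂ) * I)‖ + ‖F ((0 : ℝ) + (y : ℂ) * I) - Λ‖ :=
          norm_add_le _ _
      _ ≤ C₁ * Real.exp (-c₁ * y) * max M 0 + C₀ / c₀ * Real.exp (-c₀ * y) := by
          refine add_le_add (hhor.trans ?_) (haxis y hy0)
          exact mul_le_mul_of_nonneg_left hnorm (by positivity)
      _ ≤ C₁ * Real.exp (-(min c₁ c₀) * y) * max M 0 +
            C₀ / c₀ * Real.exp (-(min c₁ c₀) * y) := by
          refine add_le_add ?_ (mul_le_mul_of_nonneg_left e₀ (div_nonneg hC₀ hc₀.le))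
          exact mul_le_mul_of_nonneg_right (mul_le_mul_of_nonneg_left e₁ hC₁) hmax
      _ = (C₁ * max M 0 + C₀ / c₀) * Real.exp (-(min c₁ c₀) * y) := by ring

end Fermat.Agent.S22
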