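import Mathlib

set_option autoImplicit false

namespace Fermat.Agent.S22

open Polynomial

/-- `polyAct w a b c d P` is the polynomial `(cX+d)^w · P((aX+b)/(cX+d))`, for `deg P ≤ w`
(weight-`w` action of the matrix `[a b; c d]` on polynomials of degree `≤ w`). -/
noncomputable def polyAct {R : Type*} [CommRing R] (w : ℕ) (a b c d : R) (P : R[X]) : R[X] :=
  ∑ i ∈ Finset.range (w + 1), C (P.coeff i) * (C a * X + C b) ^ i * (C c * X + C d) ^ (w - i)

theorem polyAct_natDegree_le {R : Type*} [CommRing R] (w : ℕ) (a b c d : R) (P : R[X]) :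
    (polyAct w a b c d P).natDegree ≤ w := by
  unfold polyAct
  refine Polynomial.natDegree_sum_le_of_forall_le _ _ fun i hi => ?_
  have hi' : i ≤ w := Nat.lt_succ_iff.mp (Finset.mem_range.mp hi)
  have h1 : (C a * X + C b : R[X]).natDegree ≤ 1 := Polynomial.natDegree_linear_le
  have h2 : (C c * X + C d : R[X]).natDegree ≤ 1 := Polynomial.natDegree_linear_le
  have h3 : ((C a * X + C b : R[X]) ^ i).natDegree ≤ i :=
    (Polynomial.natDegree_pow_le).trans (by simpa using Nat.mul_le_mul_left i h1)
  have h4 : ((C c * X + C d : R[X]) ^ (w - i)).natDegree ≤ w - i :=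
    (Polynomial.natDegree_pow_le).trans (by simpa using Nat.mul_le_mul_left (w - i) h2)
  calc (C (P.coeff i) * (C a * X + C b) ^ i * (C c * X + C d) ^ (w - i)).natDegree
      ≤ (C (P.coeff i) * (C a * X + C b) ^ i).natDegree + ((C c * X + C d) ^ (w - i)).natDegree :=
        Polynomial.natDegree_mul_le
    _ ≤ ((C (P.coeff i)).natDegree + ((C a * X + C b) ^ i).natDegree) + (w - i) :=
        add_le_add Polynomial.natDegree_mul_le h4
    _ ≤ (0 + i) + (w - i) := by
        gcongr
        exact (Polynomial.natDegree_C _).le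
    _ = w := by omega

theorem polyAct_add {R : Type*} [CommRing R] (w : ℕ) (a b c d : R) (P Q : R[X]) :
    polyAct w a b c d (P + Q) = polyAct w a b c d P + polyAct w a b c d Q := by
  unfold polyAct
  rw [← Finset.sum_add_distrib]
  refine Finset.sum_congr rfl fun i _ => ?_
  rw [Polynomial.coeff_add, Polynomial.C_add]
  ring

theorem polyAct_smul {R : Type*} [CommRing R] (w : ℕ) (a b c d : R) (r : R) (P : R[X]) :
    polyAct w a b c d (r • P) = r • polyAct w a b c d P := by
  unfold polyAct
  rw [Finset.smul_sum]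
  refine Finset.sum_congr rfl fun i _ => ?_
  rw [Polynomial.coeff_smul, smul_eq_mul, Polynomial.C_mul, Polynomial.smul_eq_C_mul]
  ring

theorem polyAct_map {R S : Type*} [CommRing R] [CommRing S] (f : R →+* S) (w : ℕ) (a b c d : R)
    (P : R[X]) :
    (polyAct w a b c d P).map f = polyAct w (f a) (f b) (f c) (f d) (P.map f) := by
  unfold polyAct
  rw [Polynomial.map_sum]
  refine Finset.sum_congr rfl fun i _ => ?_
  simp only [Polynomial.map_mul, Polynomial.map_pow, Polynomial.map_add, Polynomial.map_C,
    Polynomial.map_X, Polynomial.coeff_map]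

theorem polyAct_eval {K : Type*} [Field K] (w : ℕ) (a b c d : K) (P : K[X])
    (hP : P.natDegree ≤ w) (z : K) (hz : c * z + d ≠ 0) :
    (polyAct w a b c d P).eval z = (c * z + d) ^ w * P.eval ((a * z + b) / (c * z + d)) := by
  unfold polyAct
  rw [Polynomial.eval_finsetSum, Polynomial.eval_eq_sum_range' (Nat.lt_succ_of_le hP),
    Finset.mul_sum]
  refine Finset.sum_congr rfl fun i hi => ?_
  have hi' : i ≤ w := Nat.lt_succ_iff.mp (Finset.mem_range.mp hi)
  simp only [Polynomial.eval_mul, Polynomial.eval_pow, Polynomial.eval_add, Polynomial.eval_C,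
    Polynomial.eval_X]
  have hw : (c * z + d) ^ w = (c * z + d) ^ (w - i) * (c * z + d) ^ i := by
    rw [← pow_add, Nat.sub_add_cancel hi']
  rw [hw, div_pow]
  generalize c * z + d = D at hz
  field_simp

end Fermat.Agent.S22
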