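import Fermat.Agent.S22.Core
import Fermat.Agent.S22.PolyAct

set_option autoImplicit false

namespace Fermat.Agent.S22

open Complex Polynomial
open UpperHalfPlane hiding I
open scoped Manifold MatrixGroups ModularForm

/-- The weight-`w` action of `γ ∈ SL(2,ℤ)` on complex polynomials of degree `≤ w`:
`(P ∥ γ)(X) = (cX+d)^w P(γX)`. -/
noncomputable def polyActSL (w : ℕ) (γ : SL(2, ℤ)) (P : ℂ[X]) : ℂ[X] :=
  polyAct w ((γ 0 0 : ℤ) : ℂ) ((γ 0 1 : ℤ) : ℂ) ((γ 1 0 : ℤ) : ℂ) ((γ 1 1 : ℤ) : ℂ) P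

/-- `φ` is admissible in weight `k` if all its `SL(2,ℤ)`-translates are good
(holomorphic with exponential decay on vertical strips). -/
def Adm (k : ℤ) (φ : ℍ → ℂ) : Prop := ∀ γ : SL(2, ℤ), Good (φ ∣[k] γ)

theorem Adm.good {k : ℤ} {φ : ℍ → ℂ} (h : Adm k φ) : Good φ := by
  have := h 1
  rwa [SlashAction.slash_one] at this

/-- The period "`∫_{i∞}^{γ(i∞)} φ(z) P(z) dz`" of a weight `w + 2` form against a polynomial of
degree `≤ w`. -/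
noncomputable def per (w : ℕ) (φ : ℍ → ℂ) (γ : SL(2, ℤ)) (P : ℂ[X]) : ℂ :=
  eI φ P (γ • UpperHalfPlane.I) - eI (φ ∣[(w : ℤ) + 2] γ) (polyActSL w γ P) UpperHalfPlane.I

theorem det_coe_SL (γ : SL(2, ℤ)) :
    ((γ : GL (Fin 2) ℝ) : Matrix (Fin 2) (Fin 2) ℝ).det = 1 :=
  (Matrix.SpecialLinearGroup.map (Int.castRingHom ℝ) γ).det_coe

theorem det_coe_SL_pos (γ : SL(2, ℤ)) :
    (0 : ℝ) < ((γ : GL (Fin 2) ℝ) : Matrix (Fin 2) (Fin 2) ℝ).det := by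
  rw [det_coe_SL]; exact one_pos

theorem denom_coe_SL (γ : SL(2, ℤ)) (τ : ℍ) :
    denom (γ : GL (Fin 2) ℝ) τ = ((γ 1 0 : ℤ) : ℂ) * τ + ((γ 1 1 : ℤ) : ℂ) := by
  simp [denom]

theorem coe_smul_SL (γ : SL(2, ℤ)) (τ : ℍ) :
    ((γ • τ : ℍ) : ℂ) = (((γ 0 0 : ℤ) : ℂ) * τ + ((γ 0 1 : ℤ) : ℂ)) /
      (((γ 1 0 : ℤ) : ℂ) * τ + ((γ 1 1 : ℤ) : ℂ)) := by
  have h : γ • τ = (γ : GL (Fin 2) ℝ) • τ := rfl
  rw [h, coe_smul_of_det_pos (by simpa using det_coe_SL_pos γ)]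
  simp [num, denom]

/-- The derivative identity behind the transformation law. -/
theorem slash_mul_polyActSL_eval (w : ℕ) (φ : ℍ → ℂ) (γ : SL(2, ℤ)) {P : ℂ[X]}
    (hP : P.natDegree ≤ w) (τ : ℍ) :
    (φ ∣[(w : ℤ) + 2] γ) τ * (polyActSL w γ P).eval (τ : ℂ) =
      φ (γ • τ) * P.eval ((γ • τ : ℍ) : ℂ) *
        (((γ : GL (Fin 2) ℝ) : Matrix (Fin 2) (Fin 2) ℝ).det / denom (γ : GL (Fin 2) ℝ) τ ^ 2) := by
  have hD : denom (γ : GL (Fin 2) ℝ) τ ≠ 0 := denom_ne_zero _ τ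
  have hD' : ((γ 1 0 : ℤ) : ℂ) * τ + ((γ 1 1 : ℤ) : ℂ) ≠ 0 := by
    rw [← denom_coe_SL]; exact hD
  rw [ModularForm.SL_slash_apply, polyActSL, polyAct_eval w _ _ _ _ P hP (τ : ℂ) hD',
    ← coe_smul_SL, det_coe_SL, ← denom_coe_SL]
  have e : denom (γ : GL (Fin 2) ℝ) τ ^ (-((w : ℤ) + 2)) * denom (γ : GL (Fin 2) ℝ) τ ^ w =
      1 / denom (γ : GL (Fin 2) ℝ) τ ^ 2 := by
    rw [zpow_neg, zpow_add₀ hD, zpow_natCast]
    have : denom (γ : GL (Fin 2) ℝ) τ ^ (2 : ℤ) = denom (γ : GL (Fin 2) ℝ) τ ^ 2 := by norm_cast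
    rw [this]
    field_simp
  calc φ (γ • τ) * denom (γ : GL (Fin 2) ℝ) τ ^ (-((w : ℤ) + 2)) *
        (denom (γ : GL (Fin 2) ℝ) τ ^ w * P.eval ((γ • τ : ℍ) : ℂ))
      = φ (γ • τ) * P.eval ((γ • τ : ℍ) : ℂ) *
          (denom (γ : GL (Fin 2) ℝ) τ ^ (-((w : ℤ) + 2)) * denom (γ : GL (Fin 2) ℝ) τ ^ w) := by
        ring
    _ = _ := by rw [e]; simp

/-- Transformation law of the Eichler integral. -/
theorem eI_smul (w : ℕ) {φ : ℍ → ℂ} (hφ : Adm ((w : ℤ) + 2) φ) (γ : SL(2, ℤ)) {P : ℂ[X]}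
    (hP : P.natDegree ≤ w) (τ : ℍ) :
    eI φ P (γ • τ) = eI (φ ∣[(w : ℤ) + 2] γ) (polyActSL w γ P) τ + per w φ γ P := by
  have D1 := (eI_hasDerivH hφ.good P).comp_smul (g := (γ : GL (Fin 2) ℝ)) (det_coe_SL_pos γ)
  have D2 := eI_hasDerivH (hφ γ) (polyActSL w γ P)
  have D3 : HasDerivH (fun τ => eI φ P ((γ : GL (Fin 2) ℝ) • τ) -
      eI (φ ∣[(w : ℤ) + 2] γ) (polyActSL w γ P) τ) (fun _ => 0) := by
    refine (D1.sub D2).congr_deriv fun τ => ?_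
    have := slash_mul_polyActSL_eval w φ γ hP τ
    have h : γ • τ = (γ : GL (Fin 2) ℝ) • τ := rfl
    rw [h] at this
    rw [this, sub_self]
  have key := D3.eq_of_deriv_zero τ UpperHalfPlane.I
  have h : γ • τ = (γ : GL (Fin 2) ℝ) • τ := rfl
  have h' : γ • UpperHalfPlane.I = (γ : GL (Fin 2) ℝ) • UpperHalfPlane.I := rfl
  unfold per
  rw [h, h']
  linear_combination key

end Fermat.Agent.S22
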