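import Mathlib

set_option autoImplicit false

namespace Fermat.Agent.S22

open Complex Set Metric Filter Topology
open UpperHalfPlane hiding I
open scoped Manifold

/-! ### Primitives of holomorphic functions on the upper half plane -/

theorem ball_subset_upperHalfPlaneSet (n : ℕ) :
    ball (((n : ℝ) + 1) * I : ℂ) ((n : ℝ) + 1) ⊆ upperHalfPlaneSet := by
  intro z hz
  rw [mem_ball, dist_eq_norm] at hz
  have h1 : |(z - ((n : ℝ) + 1) * I).im| ≤ ‖z - ((n : ℝ) + 1) * I‖ := Complex.abs_im_le_norm _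
  have h2 : (z - ((n : ℝ) + 1) * I).im = z.im - ((n : ℝ) + 1) := by simp
  rw [h2] at h1
  have := (abs_lt.mp (lt_of_le_of_lt h1 hz)).1
  show 0 < z.im
  linarith

theorem I_mem_ball_aux (n : ℕ) : (I : ℂ) ∈ ball (((n : ℝ) + 1) * I : ℂ) ((n : ℝ) + 1) := by
  rw [mem_ball, dist_eq_norm]
  have : (I : ℂ) - ((n : ℝ) + 1) * I = ((-(n : ℝ) : ℝ) : ℂ) * I := by push_cast; ring
  rw [this, norm_mul, Complex.norm_I, mul_one, Complex.norm_real, Real.norm_eq_abs, abs_neg,
    abs_of_nonneg (Nat.cast_nonneg n)]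
  linarith

theorem ball_mono_aux {n m : ℕ} (hnm : n ≤ m) :
    ball (((n : ℝ) + 1) * I : ℂ) ((n : ℝ) + 1) ⊆ ball (((m : ℝ) + 1) * I : ℂ) ((m : ℝ) + 1) := by
  apply ball_subset_ball'
  rw [dist_eq_norm]
  have : ((n : ℝ) + 1) * I - ((m : ℝ) + 1) * I = (((n : ℝ) - (m : ℝ) : ℝ) : ℂ) * I := by
    push_cast; ring
  have hnm' : (n : ℝ) ≤ (m : ℝ) := by exact_mod_cast hnm
  rw [this, norm_mul, Complex.norm_I, mul_one, Complex.norm_real, Real.norm_eq_abs,
    abs_of_nonpos (by linarith)]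
  linarith

theorem mem_ball_aux {z : ℂ} (hz : 0 < z.im) {n : ℕ} (hn : Complex.normSq z / (2 * z.im) ≤ n) :
    z ∈ ball (((n : ℝ) + 1) * I : ℂ) ((n : ℝ) + 1) := by
  rw [mem_ball, dist_eq_norm]
  have hpos : (0 : ℝ) < (n : ℝ) + 1 := by positivity
  rw [← abs_of_pos hpos, ← Real.sqrt_sq_eq_abs]
  rw [Complex.norm_def]
  apply Real.sqrt_lt_sqrt (Complex.normSq_nonneg _)
  have h1 : Complex.normSq z ≤ n * (2 * z.im) := by
    rwa [div_le_iff₀ (by positivity)] at hn
  rw [Complex.normSq_apply] at h1 ⊢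
  simp only [sub_re, mul_re, add_re, ofReal_re, one_re, Complex.I_re, mul_zero, add_im, ofReal_im,
    one_im, add_zero, Complex.I_im, mul_one, sub_self, sub_zero, sub_im, mul_im, zero_add]
  nlinarith

/-- A holomorphic function on the upper half plane has a primitive there. -/
theorem exists_primitive_upperHalfPlaneSet (h : ℂ → ℂ)
    (hh : DifferentiableOn ℂ h upperHalfPlaneSet) :
    ∃ H : ℂ → ℂ, ∀ z ∈ upperHalfPlaneSet, HasDerivAt H (h z) z := by
  set B : ℕ → Set ℂ := fun n => ball (((n : ℝ) + 1) * I : ℂ) ((n : ℝ) + 1) with hBdef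
  have hex : ∀ n : ℕ, ∃ g : ℂ → ℂ, g I = 0 ∧ ∀ x ∈ B n, HasDerivAt g (h x) x := fun n =>
    ((hh.mono (ball_subset_upperHalfPlaneSet n)).isExactOn_ball).with_val_at I 0
  choose g hgI hg using hex
  have agree : ∀ n m : ℕ, n ≤ m → ∀ z ∈ B n, g n z = g m z := by
    intro n m hnm z hz
    have hsub : B n ⊆ B m := ball_mono_aux hnm
    refine IsOpen.eqOn_of_deriv_eq isOpen_ball (convex_ball _ _).isPreconnected
      (fun x hx => (hg n x hx).differentiableAt.differentiableWithinAt)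
      (fun x hx => (hg m x (hsub hx)).differentiableAt.differentiableWithinAt)
      (fun x hx => ?_) (I_mem_ball_aux n) ?_ hz
    · rw [(hg n x hx).deriv, (hg m x (hsub hx)).deriv]
    · rw [hgI, hgI]
  set N : ℂ → ℕ := fun z => ⌈Complex.normSq z / (2 * z.im)⌉₊ with hNdef
  refine ⟨fun z => g (N z) z, fun z0 hz0 => ?_⟩
  have hz0B : z0 ∈ B (N z0) := mem_ball_aux hz0 (Nat.le_ceil _)
  refine (hg (N z0) z0 hz0B).congr_of_eventuallyEq ?_
  filter_upwards [isOpen_ball.mem_nhds hz0B] with z hz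
  have hzpos : 0 < z.im := ball_subset_upperHalfPlaneSet _ hz
  have hzB : z ∈ B (N z) := mem_ball_aux hzpos (Nat.le_ceil _)
  rcases le_total (N z) (N z0) with hle | hle
  · exact agree _ _ hle z hzB
  · exact (agree _ _ hle z hz).symm

end Fermat.Agent.S22
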